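import Fermat.Agent.SquareRestriction.Majorant

/-!
# The large values, and the fourth moment

If `|∑_{n ≤ N} a n e (n ^ 2 h / (2 N ^ 2))|` is at least `δ √(N ‖a‖²)` at `R` points, `δ` not below
a small power of `1 / N`, then `R ^ k δ ^ (4 k + 5)` is bounded; and the fourth moment over the grid
is `O (N ^ (2 + ε) ‖a‖⁴)` by the divisor bound.
-/

set_option autoImplicit false

noncomputable section

namespace FA.SquareRestriction

open Finset
open FA.ThreePrimes (eAdd)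
open FA.WaringAsymptotic (waringSum)
open FA.PrimeRestriction (energy energy_nonneg gridNorm arcKernel sum_arcKernel_le
  exists_weighted_moment_le exists_div_totient_le truncDivisors sum_norm_sq_full)
open scoped Real ComplexConjugate

/-- The sum on the grid. -/
def squareSum (N : ℕ) (a : ℕ → ℂ) (h : ℕ) : ℂ :=
  ∑ n ∈ Icc 1 N, a n * eAdd ((n : ℝ) ^ 2 * h / ((2 * N ^ 2 : ℕ) : ℝ))

theorem norm_squareSum_sq_le (N : ℕ) (a : ℕ → ℂ) (h : ℕ) :
    ‖squareSum N a h‖ ^ 2 ≤ N * energy N a := by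
  refine (pow_le_pow_left₀ (norm_nonneg _) (norm_sum_le _ _) 2).trans ?_
  simp only [norm_mul, ThreePrimes.norm_eAdd, mul_one]
  refine sq_sum_le_card_mul_sum_sq.trans (le_of_eq ?_)
  rw [Nat.card_Icc, Nat.add_sub_cancel, energy]

/-- **Duality.** -/
theorem sq_sum_norm_le (N : ℕ) (a : ℕ → ℂ) (H : Finset ℕ) :
    (∑ h ∈ H, ‖squareSum N a h‖) ^ 2 ≤ energy N a *
      ∑ h ∈ H, ∑ k ∈ H, ‖waringSum 2 N (((h : ℝ) - k) / ((2 * N ^ 2 : ℕ) : ℝ))‖ := by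
  obtain ⟨M, hM⟩ : ∃ M : ℝ, M = ((2 * N ^ 2 : ℕ) : ℝ) := ⟨_, rfl⟩
  obtain ⟨c, hc⟩ : ∃ c : ℕ → ℂ,
      c = fun h => conj (squareSum N a h) / (‖squareSum N a h‖ : ℂ) := ⟨_, rfl⟩
  have hc1 : ∀ h, ‖c h‖ ≤ 1 := fun h => by
    rw [hc]
    simp only [norm_div, Complex.norm_conj, Complex.norm_real, norm_norm]
    exact div_self_le_one _
  have hcf : ∀ h, c h * squareSum N a h = (‖squareSum N a h‖ : ℂ) := fun h => by
    rw [hc]
    simp only
    rw [div_mul_eq_mul_div, Complex.conj_mul', sq]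
    exact mul_self_div_self _
  obtain ⟨S, hS⟩ : ∃ S : ℕ → ℂ,
      S = fun n : ℕ => ∑ h ∈ H, c h * eAdd ((n : ℝ) ^ 2 * h / M) := ⟨_, rfl⟩
  have hF : ∑ h ∈ H, ‖squareSum N a h‖ ≤ ∑ n ∈ Icc 1 N, ‖a n‖ * ‖S n‖ := by
    refine le_trans (le_of_eq (Complex.norm_of_nonneg
      (sum_nonneg fun h _ => norm_nonneg (squareSum N a h))).symm) ?_
    have e : ((∑ h ∈ H, ‖squareSum N a h‖ : ℝ) : ℂ) = ∑ n ∈ Icc 1 N, a n * S n := by
      rw [Complex.ofReal_sum, sum_congr rfl fun h _ => (hcf h).symm]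
      simp only [squareSum, hS, ← hM, mul_sum]
      rw [sum_comm]
      exact sum_congr rfl fun n _ => sum_congr rfl fun h _ => by ring
    rw [e]
    exact (norm_sum_le _ _).trans (le_of_eq (sum_congr rfl fun n _ => norm_mul _ _))
  rw [← hM]
  refine (pow_le_pow_left₀ (sum_nonneg fun _ _ => norm_nonneg _) hF 2).trans
    ((sum_mul_sq_le_sq_mul_sq _ _ _).trans (mul_le_mul_of_nonneg_left ?_ (energy_nonneg N a)))
  have e : ((∑ n ∈ Icc 1 N, ‖S n‖ ^ 2 : ℝ) : ℂ) =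
      ∑ h ∈ H, ∑ k ∈ H, c h * conj (c k) * waringSum 2 N (((h : ℝ) - k) / M) := by
    rw [Complex.ofReal_sum]
    simp only [waringSum, mul_sum]
    rw [sum_congr rfl fun h _ => sum_comm (s := H) (t := Icc 1 N), sum_comm]
    refine sum_congr rfl fun n _ => ?_
    rw [Complex.ofReal_pow, ← Complex.mul_conj', hS]
    simp only [map_sum, sum_mul_sum]
    refine sum_congr rfl fun h _ => sum_congr rfl fun k _ => ?_
    rw [map_mul, show ((h : ℝ) - k) / M * (n : ℝ) ^ 2 =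
      (n : ℝ) ^ 2 * h / M - (n : ℝ) ^ 2 * k / M by ring, PrimeRestriction.eAdd_sub]
    ring
  refine le_trans (le_of_eq (Complex.norm_of_nonneg (sum_nonneg fun n _ =>
    sq_nonneg ‖S n‖)).symm) ?_
  rw [e]
  refine (norm_sum_le _ _).trans (sum_le_sum fun h _ => (norm_sum_le _ _).trans
    (sum_le_sum fun k _ => ?_))
  rw [norm_mul, norm_mul, Complex.norm_conj]
  exact mul_le_of_le_one_left (norm_nonneg _) (mul_le_one₀ (hc1 h) (norm_nonneg _) (hc1 k))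

/-- **The large values.** -/
theorem exists_large_values {k : ℕ} (hk : 1 ≤ k) : ∃ C : ℝ, 0 < C ∧
    ∀ N : ℕ, 1 ≤ N → ∀ a : ℕ → ℂ, 0 < energy N a → ∀ δ : ℝ, 0 < δ → δ ≤ 1 →
      1 ≤ (N : ℝ) * δ ^ 200 → ∀ H : Finset ℕ, H ⊆ range (2 * N ^ 2) →
      (∀ h ∈ H, δ ^ 2 * (N * energy N a) ≤ ‖squareSum N a h‖ ^ 2) →
      (H.card : ℝ) ^ k * δ ^ (4 * k + 5) ≤ C := by
  obtain ⟨η, hη⟩ : ∃ η : ℝ, η = 1 / (4 * (2 * k + 3)) := ⟨_, rfl⟩
  have hη0 : 0 < η := by rw [hη]; positivity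
  obtain ⟨C₁, hC₁, htw⟩ := exists_square_sum_le
  obtain ⟨C₂, hC₂, hmom⟩ := exists_weighted_moment_le k hη0
  obtain ⟨C₃, hC₃, hphi⟩ := exists_div_totient_le hη0
  obtain ⟨L, hL⟩ : ∃ L : ℝ, L = 16 * C₁ + 1 := ⟨_, rfl⟩
  obtain ⟨K, hK⟩ : ∃ K : ℝ, K = C₁ * (256 * (4 + 4 / η) * C₃) := ⟨_, rfl⟩
  have hK0 : 0 < K := by rw [hK]; positivity
  obtain ⟨T, hT⟩ : ∃ T : ℕ, T = max (max ⌈(8 * C₁) ^ 40⌉₊ ⌈16 * L⌉₊) ⌈4 * K * L ^ 2⌉₊ + 1 :=
    ⟨_, rfl⟩
  refine ⟨max (((2 * T ^ 2 : ℕ) : ℝ) ^ k) (L * ((2 * K) ^ (k + 1) * C₂)),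
    lt_max_of_lt_right (mul_pos (hL ▸ by positivity) (by positivity)), fun N hN a hB δ hδ0 hδ1 hδN H
      hH hlarge => ?_⟩
  rcases Nat.lt_or_ge N T with hsmall | hbig
  · refine le_trans ?_ (le_max_left _ _)
    refine le_trans (mul_le_of_le_one_right (by positivity) (pow_le_one₀ hδ0.le hδ1))
      (pow_le_pow_left₀ (Nat.cast_nonneg _) (Nat.cast_le.2 ?_) k)
    refine (card_le_card hH).trans ((card_range _).le.trans ?_)
    exact Nat.mul_le_mul_left 2 (Nat.pow_le_pow_left hsmall.le 2)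
  refine le_trans ?_ (le_max_right _ _)
  rw [hT] at hbig
  have hbig' : max (max ⌈(8 * C₁) ^ 40⌉₊ ⌈16 * L⌉₊) ⌈4 * K * L ^ 2⌉₊ ≤ N := by omega
  have hb1 : (8 * C₁) ^ 40 ≤ (N : ℝ) := (Nat.le_ceil _).trans (Nat.cast_le.2
    ((le_max_left _ _).trans ((le_max_left _ _).trans hbig')))
  have hb2 : 16 * L ≤ (N : ℝ) := (Nat.le_ceil _).trans (Nat.cast_le.2
    ((le_max_right _ _).trans ((le_max_left _ _).trans hbig')))
  have hb3 : 4 * K * L ^ 2 ≤ (N : ℝ) := (Nat.le_ceil _).trans (Nat.cast_le.2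
    ((le_max_right _ _).trans hbig'))
  have hN1 : (1 : ℝ) ≤ N := by exact_mod_cast hN
  have hN0 : (0 : ℝ) < N := by linarith
  obtain ⟨M, hM⟩ : ∃ M, M = 2 * N ^ 2 := ⟨_, rfl⟩
  have hMr : (M : ℝ) = 2 * (N : ℝ) ^ 2 := by rw [hM]; push_cast; ring
  have hM0 : (0 : ℝ) < M := by rw [hMr]; positivity
  rw [← hM] at hH
  have hδpow : ∀ j : ℕ, j ≤ 200 → 1 ≤ (N : ℝ) * δ ^ j := fun j hj =>
    hδN.trans (mul_le_mul_of_nonneg_left (pow_le_pow_of_le_one hδ0.le hδ1 hj) hN0.le)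
  -- the parameters
  obtain ⟨U, hU⟩ : ∃ U, U = ⌈8 * C₁ / δ ^ 4⌉₊ := ⟨_, rfl⟩
  have hUlo : 8 * C₁ / δ ^ 4 ≤ U := hU ▸ Nat.le_ceil _
  have hU1' : 1 ≤ U := hU ▸ Nat.ceil_pos.2 (by positivity)
  have hU1 : (1 : ℝ) ≤ U := by exact_mod_cast hU1'
  have hUhi : (U : ℝ) * δ ^ 4 ≤ L := by
    have h1 := (Nat.ceil_lt_add_one (show 0 ≤ 8 * C₁ / δ ^ 4 by positivity)).le
    rw [← hU, div_add_one (by positivity), le_div_iff₀ (by positivity)] at h1
    have := pow_le_one₀ (n := 4) hδ0.le hδ1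
    rw [hL]
    linarith
  obtain ⟨J, hJ⟩ : ∃ J, J = Nat.log 2 U + 1 := ⟨_, rfl⟩
  have hUJ : U ≤ 2 ^ J := hJ ▸ (Nat.lt_pow_succ_log_self one_lt_two U).le
  have h2J : 2 ^ J ≤ 2 * U := by
    rw [hJ, pow_succ, mul_comm]
    exact Nat.mul_le_mul_left 2 (Nat.pow_log_le_self 2 (by omega))
  have hUN : (16 : ℝ) * U ≤ (N : ℝ) ^ 2 := by
    calc (16 : ℝ) * U = 16 * U * 1 := (mul_one _).symm
      _ ≤ 16 * U * ((N : ℝ) * δ ^ 4) :=
          mul_le_mul_of_nonneg_left (hδpow 4 (by norm_num)) (by positivity)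
      _ = 16 * ((U : ℝ) * δ ^ 4) * N := by ring
      _ ≤ 16 * L * N := by gcongr
      _ ≤ _ := by rw [sq]; exact mul_le_mul_of_nonneg_right hb2 hN0.le
  have hJN : 2 ^ (J + 4) ≤ 2 * N ^ 2 := by
    have h1 : 2 ^ (J + 4) ≤ 32 * U := by rw [pow_add]; omega
    have h2 : 16 * U ≤ N ^ 2 := by exact_mod_cast hUN
    omega
  obtain ⟨V, hV⟩ : ∃ V : ℝ, V = (U : ℝ) ^ η := ⟨_, rfl⟩
  have hV1 : 1 ≤ V := hV ▸ Real.one_le_rpow hU1 hη0.le
  have hJV : (J : ℝ) + 1 ≤ (4 + 4 / η) * V := by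
    have h1 := Real.log_le_log (by positivity)
      (show ((2 : ℝ) ^ J) ≤ 2 * U by exact_mod_cast h2J)
    rw [Real.log_pow, Real.log_mul two_ne_zero (by linarith)] at h1
    have h2 := Real.log_le_rpow_div (Nat.cast_nonneg (α := ℝ) U) hη0
    rw [← hV] at h2
    have h3 := Real.log_two_gt_d9
    have h4 := Real.log_two_lt_d9
    have h5 : (J : ℝ) / 2 ≤ (J : ℝ) * Real.log 2 := by
      rw [div_eq_mul_inv]
      exact mul_le_mul_of_nonneg_left (by norm_num; linarith) (Nat.cast_nonneg J)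
    rw [add_mul, div_mul_eq_mul_div]
    have h6 : 4 * V / η = 4 * (V / η) := by ring
    have h7 : 0 ≤ V / η := by positivity
    rw [h6]
    linarith
  have hphi' : ∀ q ∈ Icc 1 U, (q : ℝ) / q.totient ≤ C₃ * V := fun q hq =>
    hV ▸ hphi q U (mem_Icc.1 hq).1 (mem_Icc.1 hq).2
  -- the pairs
  obtain ⟨R, hR⟩ : ∃ R : ℝ, R = H.card := ⟨_, rfl⟩
  have hR0 : 0 ≤ R := hR ▸ Nat.cast_nonneg _
  rcases hR0.eq_or_lt with h | hRpos
  · rw [← hR, ← h, zero_pow (by omega), zero_mul]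
    rw [hL]
    positivity
  obtain ⟨X, hX⟩ : ∃ X, X = ∑ m ∈ Ioc 0 M, (truncDivisors U m : ℝ) * gridNorm M H m := ⟨_, rfl⟩
  obtain ⟨G, hG⟩ : ∃ G : ℕ → ℕ → ℝ,
      G = fun h k : ℕ => ‖waringSum 2 N (((h : ℝ) - k) / (M : ℝ))‖ := ⟨_, rfl⟩
  have hlow : δ ^ 2 * R ^ 2 * N ≤ ∑ h ∈ H, ∑ k ∈ H, G h k := by
    have h1 : R * √(δ ^ 2 * (N * energy N a)) ≤ ∑ h ∈ H, ‖squareSum N a h‖ := by
      rw [hR, ← nsmul_eq_mul, ← sum_const]
      refine sum_le_sum fun h hh => ?_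
      rw [Real.sqrt_le_left (norm_nonneg _)]
      exact hlarge h hh
    have h2 := (pow_le_pow_left₀ (by positivity) h1 2).trans (sq_sum_norm_le N a H)
    rw [mul_pow, Real.sq_sqrt (by positivity), ← hM] at h2
    refine le_of_mul_le_mul_left (le_trans (le_of_eq ?_) h2) hB |>.trans (le_of_eq (by rw [hG]))
    ring
  have hCS : (∑ h ∈ H, ∑ k ∈ H, G h k) ^ 2 ≤ R ^ 2 * ∑ h ∈ H, ∑ k ∈ H, G h k ^ 2 := by
    rw [← sum_product', ← sum_product', hR, sq (H.card : ℝ), ← Nat.cast_mul, ← card_product]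
    exact sq_sum_le_card_mul_sum_sq
  have hpt : ∀ h k, G h k ^ 2 ≤
      (N : ℝ) ^ 2 * (δ ^ 4 / 4 + C₁ * arcKernel M U J (((h : ℝ) - k) / (M : ℝ))) := fun h k => by
    rw [hG, hM]
    refine (htw N U J hN hU1' hUJ hJN _).trans ?_
    refine mul_le_mul_of_nonneg_left (add_le_add ?_ le_rfl) (sq_nonneg _)
    have h1 : C₁ / (U : ℝ) ≤ δ ^ 4 / 8 := by
      rw [div_le_iff₀ (by positivity)] at hUlo
      rw [div_le_div_iff₀ (by positivity) (by norm_num)]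
      linarith
    have h2 : C₁ / (N : ℝ) ^ (1 / 20 : ℝ) ≤ δ ^ 4 / 8 := by
      have h3 : 8 * C₁ ≤ (N : ℝ) ^ (1 / 40 : ℝ) := by
        refine le_of_pow_le_pow_left₀ (show 40 ≠ 0 by norm_num) (by positivity) ?_
        rw [← Real.rpow_natCast ((N : ℝ) ^ _), ← Real.rpow_mul hN0.le]
        norm_num
        exact hb1
      have h4 : 1 ≤ (N : ℝ) ^ (1 / 40 : ℝ) * δ ^ 4 := by
        refine (one_le_pow_iff_of_nonneg (by positivity) (show 40 ≠ 0 by norm_num)).1 ?_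
        rw [mul_pow, ← pow_mul, ← Real.rpow_natCast ((N : ℝ) ^ _), ← Real.rpow_mul hN0.le]
        norm_num
        exact hδpow 160 (by norm_num)
      rw [div_le_div_iff₀ (by positivity) (by norm_num),
        show (1 / 20 : ℝ) = 1 / 40 + 1 / 40 by norm_num, Real.rpow_add hN0]
      calc C₁ * 8 = 8 * C₁ * 1 := by ring
        _ ≤ (N : ℝ) ^ (1 / 40 : ℝ) * ((N : ℝ) ^ (1 / 40 : ℝ) * δ ^ 4) :=
            mul_le_mul h3 h4 zero_le_one (by positivity)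
        _ = _ := by ring
    linarith
  have hmain : δ ^ 4 * R ^ 2 ≤ δ ^ 4 / 4 * R ^ 2 + K * V ^ 2 / M * ((U : ℝ) * R ^ 2 + X) := by
    refine le_of_mul_le_mul_left ?_ (show 0 < R ^ 2 * (N : ℝ) ^ 2 by positivity)
    calc R ^ 2 * (N : ℝ) ^ 2 * (δ ^ 4 * R ^ 2) = (δ ^ 2 * R ^ 2 * N) ^ 2 := by ring
      _ ≤ (∑ h ∈ H, ∑ k ∈ H, G h k) ^ 2 := pow_le_pow_left₀ (by positivity) hlow 2
      _ ≤ R ^ 2 * ∑ h ∈ H, ∑ k ∈ H, G h k ^ 2 := hCS
      _ ≤ R ^ 2 * ∑ h ∈ H, ∑ k ∈ H,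
          (N : ℝ) ^ 2 * (δ ^ 4 / 4 + C₁ * arcKernel M U J (((h : ℝ) - k) / (M : ℝ))) :=
            mul_le_mul_of_nonneg_left (sum_le_sum fun h _ => sum_le_sum fun k _ => hpt h k)
              (sq_nonneg R)
      _ ≤ _ := by
          simp only [← mul_sum, sum_add_distrib, sum_const, nsmul_eq_mul, ← hR]
          rw [mul_assoc (R ^ 2)]
          refine mul_le_mul_of_nonneg_left (mul_le_mul_of_nonneg_left
            (add_le_add (le_of_eq (by ring)) ?_) (sq_nonneg _)) (sq_nonneg R)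
          refine (mul_le_mul_of_nonneg_left (sum_arcKernel_le (hM ▸ hJN) H hphi') hC₁.le).trans ?_
          rw [← hR, ← hX, ← mul_assoc]
          refine mul_le_mul_of_nonneg_right ?_ (add_nonneg (by positivity) (hX ▸ sum_nonneg
            fun m _ => mul_nonneg (Nat.cast_nonneg _) (sq_nonneg _)))
          rw [mul_div_assoc', hK]
          refine div_le_div_of_nonneg_right ?_ hM0.le
          calc C₁ * (256 * ((J : ℝ) + 1) * (C₃ * V))
              ≤ C₁ * (256 * ((4 + 4 / η) * V) * (C₃ * V)) := by gcongr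
            _ = _ := by ring
  have hUterm : K * V ^ 2 / M * ((U : ℝ) * R ^ 2) ≤ δ ^ 4 / 4 * R ^ 2 := by
    rw [← mul_assoc]
    refine mul_le_mul_of_nonneg_right ?_ (sq_nonneg R)
    have hVU : V ^ 2 ≤ U := by
      rw [hV, ← Real.rpow_natCast, ← Real.rpow_mul (by linarith)]
      refine Real.rpow_le_self_of_one_le hU1 ?_
      rw [hη]
      push_cast
      rw [div_mul_eq_mul_div, div_le_one (by positivity)]
      linarith [(Nat.cast_nonneg k : (0 : ℝ) ≤ k)]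
    rw [div_mul_eq_mul_div, div_le_iff₀ hM0, hMr]
    refine le_of_mul_le_mul_right ?_ (show 0 < δ ^ 8 by positivity)
    calc K * V ^ 2 * U * δ ^ 8 ≤ K * U * U * δ ^ 8 := by gcongr
      _ = K * ((U : ℝ) * δ ^ 4) ^ 2 := by ring
      _ ≤ K * L ^ 2 * 1 := by rw [mul_one]; gcongr
      _ ≤ ((N : ℝ) / 4) * ((N : ℝ) * δ ^ 12) :=
          mul_le_mul (by linarith) (hδpow 12 (by norm_num)) zero_le_one (by positivity)
      _ ≤ _ := by
          have e : δ ^ 4 / 4 * (2 * (N : ℝ) ^ 2) * δ ^ 8 =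
            2 * ((N : ℝ) / 4 * ((N : ℝ) * δ ^ 12)) := by ring
          have : 0 ≤ (N : ℝ) / 4 * ((N : ℝ) * δ ^ 12) := by positivity
          linarith
  have hkey : δ ^ 4 * R ^ 2 ≤ 2 * K * V ^ 2 * (X / M) := by
    rw [mul_add] at hmain
    have : K * V ^ 2 / (M : ℝ) * X = K * V ^ 2 * (X / M) := by ring
    linarith
  have hXk : X ^ (k + 1) / (M : ℝ) ^ (k + 1) ≤ C₂ * V * R ^ (k + 2) := by
    rw [div_le_iff₀ (by positivity), hV, hR, hX, mul_right_comm]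
    exact hmom U M hU1' (by exact_mod_cast hM0) H hH
  have hVδ : V ^ (2 * k + 3) * δ ≤ L := by
    have hL1 : 1 ≤ L := by rw [hL]; linarith
    refine le_of_pow_le_pow_left₀ (show 4 ≠ 0 by norm_num) (by linarith)
      (le_trans (le_of_eq ?_) (hUhi.trans (le_self_pow₀ hL1 (by norm_num))))
    rw [mul_pow, hV, ← Real.rpow_natCast ((U : ℝ) ^ η), ← Real.rpow_mul (by linarith),
      ← Real.rpow_natCast (((U : ℝ) ^ (η * ((2 * k + 3 : ℕ) : ℝ)))),
      ← Real.rpow_mul (by linarith)]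
    have e : η * ((2 * k + 3 : ℕ) : ℝ) * ((4 : ℕ) : ℝ) = 1 := by
      rw [hη]
      push_cast
      field_simp
    rw [e, Real.rpow_one]
  rw [← hR]
  refine le_of_mul_le_mul_left ?_ (pow_pos hRpos (k + 2))
  calc R ^ (k + 2) * (R ^ k * δ ^ (4 * k + 5)) = (δ ^ 4 * R ^ 2) ^ (k + 1) * δ := by ring
    _ ≤ (2 * K * V ^ 2 * (X / M)) ^ (k + 1) * δ :=
        mul_le_mul_of_nonneg_right (pow_le_pow_left₀ (by positivity) hkey _) hδ0.le
    _ = (2 * K) ^ (k + 1) * V ^ (2 * (k + 1)) * (X ^ (k + 1) / (M : ℝ) ^ (k + 1)) * δ := by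
        rw [mul_pow, mul_pow, div_pow, pow_mul]
    _ ≤ (2 * K) ^ (k + 1) * V ^ (2 * (k + 1)) * (C₂ * V * R ^ (k + 2)) * δ :=
        mul_le_mul_of_nonneg_right (mul_le_mul_of_nonneg_left hXk (by positivity)) hδ0.le
    _ = (2 * K) ^ (k + 1) * C₂ * R ^ (k + 2) * (V ^ (2 * k + 3) * δ) := by ring
    _ ≤ (2 * K) ^ (k + 1) * C₂ * R ^ (k + 2) * L :=
        mul_le_mul_of_nonneg_left hVδ (by positivity)
    _ = _ := by ring

/-! ### The fourth moment -/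

/-- Pairs with a given difference of squares. -/
theorem card_sq_diff_le {N d : ℕ} (hdN : d ≠ N ^ 2) :
    ((Icc 1 N ×ˢ Icc 1 N).filter fun z => N ^ 2 + z.1 ^ 2 - z.2 ^ 2 = d).card ≤
      (Nat.dist d (N ^ 2)).divisors.card := by
  have key : ∀ z ∈ (Icc 1 N ×ˢ Icc 1 N).filter (fun z => N ^ 2 + z.1 ^ 2 - z.2 ^ 2 = d),
      Nat.dist d (N ^ 2) = (z.1 + z.2) * Nat.dist z.1 z.2 ∧ 0 < Nat.dist z.1 z.2 ∧
        (z.2 ≤ z.1 ↔ N ^ 2 ≤ d) := by
    intro z hz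
    simp only [mem_filter, mem_product, mem_Icc] at hz
    have h2 := Nat.pow_le_pow_left hz.1.2.2 2
    rcases lt_trichotomy z.2 z.1 with h | h | h
    · have h1 := Nat.pow_le_pow_left h.le 2
      have h3 := Nat.pow_lt_pow_left h two_ne_zero
      refine ⟨?_, by rw [Nat.dist_eq_sub_of_le_right h.le]; omega, iff_of_true h.le (by omega)⟩
      rw [Nat.dist_eq_sub_of_le_right h.le, Nat.dist_eq_sub_of_le_right (show N ^ 2 ≤ d by omega),
        ← Nat.sq_sub_sq]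
      omega
    · exact absurd (by rw [h] at hz; omega) hdN
    · have h3 := Nat.pow_lt_pow_left h two_ne_zero
      refine ⟨?_, by rw [Nat.dist_eq_sub_of_le h.le]; omega,
        iff_of_false (by omega) (by omega)⟩
      rw [Nat.dist_eq_sub_of_le h.le, Nat.dist_eq_sub_of_le (show d ≤ N ^ 2 by omega),
        add_comm z.1, ← Nat.sq_sub_sq]
      omega
  refine card_le_card_of_injOn (fun z => Nat.dist z.1 z.2) (fun z hz => ?_)
    fun z hz w hw e => ?_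
  · obtain ⟨h1, h2, -⟩ := key z hz
    simp only [mem_coe, Nat.mem_divisors]
    refine ⟨h1 ▸ dvd_mul_left _ _, fun h => hdN ?_⟩
    rw [Nat.dist] at h
    omega
  · obtain ⟨h1, h2, h3⟩ := key z hz
    obtain ⟨g1, g2, g3⟩ := key w hw
    simp only at e
    rw [← e] at g1 g2
    have h4 : z.1 + z.2 = w.1 + w.2 := Nat.eq_of_mul_eq_mul_right h2 (h1.symm.trans g1)
    rcases le_total z.2 z.1 with hle | hle
    · have := g3.2 (h3.1 hle)
      rw [Nat.dist_eq_sub_of_le_right hle, Nat.dist_eq_sub_of_le_right this] at e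
      exact Prod.ext (by omega) (by omega)
    · rcases hle.eq_or_lt with heq | hlt
      · rw [heq, Nat.dist_self] at h2
        exact absurd h2 (lt_irrefl 0)
      · have : w.1 < w.2 := by
          by_contra hcon
          exact absurd (h3.2 (g3.1 (not_lt.1 hcon))) (by omega)
        rw [Nat.dist_eq_sub_of_le hlt.le, Nat.dist_eq_sub_of_le this.le] at e
        exact Prod.ext (by omega) (by omega)

/-- **The fourth moment.** -/
theorem exists_fourth_moment_le {ε : ℝ} (hε : 0 < ε) : ∃ C : ℝ, 0 < C ∧ ∀ N : ℕ, 1 ≤ N →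
    ∀ a : ℕ → ℂ, ∑ h ∈ range (2 * N ^ 2), ‖squareSum N a h‖ ^ 4 ≤
      C * (N : ℝ) ^ (2 + ε) * energy N a ^ 2 := by
  classical
  obtain ⟨C, hC, hτ⟩ := RepresentationBound.card_divisors_isBigO (ε / 2) (by positivity)
  refine ⟨2 * (1 + C), by linarith, fun N hN a => ?_⟩
  have hN1 : (1 : ℝ) ≤ N := by exact_mod_cast hN
  obtain ⟨Z, hZ⟩ : ∃ Z, Z = Icc 1 N ×ˢ Icc 1 N := ⟨_, rfl⟩
  obtain ⟨κ, hκ⟩ : ∃ κ : ℕ → ℂ, κ = fun d =>
      ∑ z ∈ Z.filter (fun z => N ^ 2 + z.1 ^ 2 - z.2 ^ 2 = d), a z.1 * conj (a z.2) := ⟨_, rfl⟩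
  have hmaps : ∀ z ∈ Z, N ^ 2 + z.1 ^ 2 - z.2 ^ 2 ∈ Icc 1 (2 * N ^ 2) := by
    intro z hz
    simp only [hZ, mem_product, mem_Icc] at hz ⊢
    have h1 := Nat.pow_le_pow_left hz.1.2 2
    have h2 := Nat.pow_le_pow_left hz.2.2 2
    have h3 := Nat.one_le_pow 2 z.1 hz.1.1
    omega
  obtain ⟨M, hM⟩ : ∃ M : ℝ, M = ((2 * N ^ 2 : ℕ) : ℝ) := ⟨_, rfl⟩
  have e : ∀ h : ℕ, ‖squareSum N a h‖ ^ 4 =
      ‖∑ d ∈ Icc 1 (2 * N ^ 2), κ d * eAdd ((d : ℝ) * h / M)‖ ^ 2 := by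
    intro h
    have e1 : ((‖squareSum N a h‖ ^ 2 : ℝ) : ℂ) * eAdd ((N : ℝ) ^ 2 * h / M) =
        ∑ d ∈ Icc 1 (2 * N ^ 2), κ d * eAdd ((d : ℝ) * h / M) := by
      rw [Complex.ofReal_pow, ← Complex.mul_conj', squareSum, ← hM, map_sum, sum_mul_sum,
        ← sum_product', sum_mul, ← hZ, ← sum_fiberwise_of_maps_to hmaps]
      refine sum_congr rfl fun d _ => ?_
      simp only [hκ, sum_mul]
      refine sum_congr rfl fun z hz => ?_
      rw [mem_filter] at hz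
      rw [← hz.2, map_mul, ThreePrimes.conj_eAdd]
      have hle : z.2 ^ 2 ≤ N ^ 2 + z.1 ^ 2 := by
        have h1 := hz.1
        simp only [hZ, mem_product, mem_Icc] at h1
        exact le_add_right (Nat.pow_le_pow_left h1.2.2 2)
      rw [Nat.cast_sub hle]
      push_cast
      rw [show ((N : ℝ) ^ 2 + (z.1 : ℝ) ^ 2 - (z.2 : ℝ) ^ 2) * h / M = (z.1 : ℝ) ^ 2 * h / M +
        -((z.2 : ℝ) ^ 2 * h / M) + (N : ℝ) ^ 2 * h / M by ring, ThreePrimes.eAdd_add,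
        ThreePrimes.eAdd_add]
      ring
    rw [← e1, norm_mul, ThreePrimes.norm_eAdd, mul_one, Complex.norm_of_nonneg (sq_nonneg _),
      ← pow_mul]
  simp only [e]
  rw [hM, sum_norm_sq_full (show 0 < 2 * N ^ 2 by positivity), ← hM]
  have hbound : ∑ d ∈ Icc 1 (2 * N ^ 2), ‖κ d‖ ^ 2 ≤ (1 + C) * (N : ℝ) ^ ε * energy N a ^ 2 := by
    have hne : (1 : ℝ) ≤ (N : ℝ) ^ ε := Real.one_le_rpow hN1 hε.le
    have hfib : ∑ d ∈ Icc 1 (2 * N ^ 2),
        ∑ z ∈ Z.filter (fun z => N ^ 2 + z.1 ^ 2 - z.2 ^ 2 = d),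
          ‖a z.1‖ ^ 2 * ‖a z.2‖ ^ 2 = energy N a ^ 2 := by
      rw [sum_fiberwise_of_maps_to hmaps, hZ, sum_product, energy, sq, sum_mul_sum]
    rw [← add_sum_erase _ _ (show N ^ 2 ∈ Icc 1 (2 * N ^ 2) from mem_Icc.2
      ⟨Nat.one_le_pow 2 N hN, by omega⟩), add_mul, add_mul, one_mul]
    refine add_le_add ?_ ?_
    · refine le_trans (pow_le_pow_left₀ (norm_nonneg _) ?_ 2)
        (le_mul_of_one_le_left (sq_nonneg _) hne)
      rw [hκ]
      refine (norm_sum_le _ _).trans ?_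
      refine le_trans (sum_le_sum_of_subset_of_nonneg (t := (Icc 1 N).image fun n => (n, n))
        (fun z hz => ?_) fun z _ _ => norm_nonneg _) (le_of_eq ?_)
      · simp only [hZ, mem_filter, mem_product, mem_Icc] at hz
        have h1 := Nat.pow_le_pow_left hz.1.2.2 2
        have h2 : z.1 = z.2 := Nat.pow_left_injective two_ne_zero
          (show z.1 ^ 2 = z.2 ^ 2 by omega)
        exact mem_image.2 ⟨z.1, mem_Icc.2 hz.1.1, Prod.ext rfl h2⟩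
      · rw [sum_image fun x _ y _ h => (Prod.ext_iff.1 h).1, energy]
        exact sum_congr rfl fun n _ => by rw [norm_mul, Complex.norm_conj, sq]
    · refine (sum_le_sum (g := fun d => C * (N : ℝ) ^ ε *
        ∑ z ∈ Z.filter (fun z => N ^ 2 + z.1 ^ 2 - z.2 ^ 2 = d),
          ‖a z.1‖ ^ 2 * ‖a z.2‖ ^ 2) fun d hd => ?_).trans ?_
      · rw [mem_erase, mem_Icc] at hd
        rw [hκ]
        refine (pow_le_pow_left₀ (norm_nonneg _) (norm_sum_le _ _) 2).trans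
          (sq_sum_le_card_mul_sum_sq.trans (mul_le_mul ?_ (le_of_eq (sum_congr rfl fun z _ => ?_))
            (sum_nonneg fun _ _ => sq_nonneg _) (by positivity)))
        · refine (Nat.cast_le.2 (hZ ▸ card_sq_diff_le hd.1)).trans ?_
          have hne0 : Nat.dist d (N ^ 2) ≠ 0 := fun h => hd.1 (Nat.eq_of_dist_eq_zero h)
          refine (hτ _ hne0).trans (mul_le_mul_of_nonneg_left ?_ (by linarith))
          rw [show ε = ((2 : ℕ) : ℝ) * (ε / 2) by push_cast; ring, Real.rpow_mul (by linarith),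
            Real.rpow_natCast, show ((2 : ℕ) : ℝ) * (ε / 2) / 2 = ε / 2 by push_cast; ring]
          refine Real.rpow_le_rpow (Nat.cast_nonneg _) ?_ (by positivity)
          exact_mod_cast (show Nat.dist d (N ^ 2) ≤ N ^ 2 by rw [Nat.dist]; omega)
        · rw [norm_mul, Complex.norm_conj, mul_pow]
      · rw [← mul_sum]
        refine mul_le_mul_of_nonneg_left (le_trans (sum_le_sum_of_subset_of_nonneg
          (erase_subset _ _) fun d _ _ => sum_nonneg fun z _ => by positivity) hfib.le)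
          (by positivity)
  refine (mul_le_mul_of_nonneg_left hbound (hM ▸ Nat.cast_nonneg _)).trans (le_of_eq ?_)
  rw [hM, Real.rpow_add (by linarith)]
  push_cast
  rw [show (N : ℝ) ^ (2 : ℝ) = (N : ℝ) ^ 2 from Real.rpow_natCast _ 2 ▸ rfl]
  ring

end FA.SquareRestriction
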