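import Fermat.Agent.SquareRestriction.LargeValues

/-!
# Bourgain's restriction theorem for the squares

The large values over dyadic ranges and, below a small power of `1 / N`, the fourth moment give for
every `q > 4` that the `q`-th moment of `∑_{n ≤ N} a n e (n ^ 2 t)` is
`O (N ^ (q / 2 - 2) ‖a‖ ^ q)`, with no loss of `N ^ ε`.
-/

set_option autoImplicit false

noncomputable section

namespace FA.SquareRestriction

open Finset
open FA.ThreePrimes (eAdd)
open FA.PrimeRestriction (energy energy_nonneg)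
open scoped Real ComplexConjugate

/-- **The restriction estimate on the grid.** -/
theorem exists_grid_restriction {q : ℝ} (hq : 4 < q) : ∃ C : ℝ, 0 < C ∧
    ∀ N : ℕ, 1 ≤ N → ∀ a : ℕ → ℂ,
      ∑ h ∈ range (2 * N ^ 2), ‖squareSum N a h‖ ^ q ≤ C * (N * energy N a) ^ (q / 2) := by
  classical
  obtain ⟨k, hk⟩ : ∃ k : ℕ, k = ⌊5 / (q - 4)⌋₊ + 1 := ⟨_, rfl⟩
  have hk0 : 1 ≤ k := by omega
  have hkR : (0 : ℝ) < k := Nat.cast_pos.2 hk0
  obtain ⟨γ, hγ⟩ : ∃ γ : ℝ, γ = ((4 * k + 5 : ℕ) : ℝ) / k := ⟨_, rfl⟩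
  have hγ0 : 0 ≤ γ := hγ ▸ by positivity
  have hγq : γ < q := by
    rw [hγ, div_lt_iff₀ hkR]
    have h1 := Nat.lt_floor_add_one (5 / (q - 4))
    rw [div_lt_iff₀ (by linarith)] at h1
    rw [hk]
    push_cast at h1 ⊢
    linarith
  obtain ⟨C, hC, hlarge⟩ := exists_large_values hk0
  obtain ⟨C₄, hC₄, hfourth⟩ := exists_fourth_moment_le (ε := (q - 4) / 200) (by linarith)
  obtain ⟨C', hC'⟩ : ∃ C' : ℝ, C' = max C 1 := ⟨_, rfl⟩
  have hC'1 : 1 ≤ C' := hC' ▸ le_max_right _ _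
  obtain ⟨ρ, hρ⟩ : ∃ ρ : ℝ, ρ = (1 / 2 : ℝ) ^ (q - γ) := ⟨_, rfl⟩
  have hρ0 : 0 ≤ ρ := hρ ▸ Real.rpow_nonneg (by norm_num) _
  have hρ1 : ρ < 1 := hρ ▸ Real.rpow_lt_one (by norm_num) (by norm_num) (by linarith)
  obtain ⟨D, hD⟩ : ∃ D : ℝ, D = C' * 2 ^ γ / (1 - ρ) := ⟨_, rfl⟩
  have hD0 : 0 < D := hD ▸ div_pos (by positivity) (by linarith)
  refine ⟨C₄ + D, by positivity, fun N hN a => ?_⟩
  have hN1 : (1 : ℝ) ≤ N := by exact_mod_cast hN
  have hN0 : (0 : ℝ) < N := by linarith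
  obtain ⟨W, hW⟩ : ∃ W, W = (N : ℝ) * energy N a := ⟨_, rfl⟩
  have hW0 : 0 ≤ W := hW ▸ mul_nonneg hN0.le (energy_nonneg N a)
  rw [← hW]
  rcases hW0.eq_or_lt with h | hWpos
  · rw [← h, Real.zero_rpow (by linarith), mul_zero]
    refine (sum_eq_zero fun x _ => ?_).le
    have h1 := norm_squareSum_sq_le N a x
    rw [← hW, ← h] at h1
    have h2 : ‖squareSum N a x‖ = 0 :=
      pow_eq_zero_iff two_ne_zero |>.1 (le_antisymm h1 (sq_nonneg _))
    rw [h2, Real.zero_rpow (by linarith)]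
  have hB : 0 < energy N a := (mul_pos_iff_of_pos_left hN0).1 (hW ▸ hWpos)
  obtain ⟨x, hx⟩ : ∃ x : ℕ → ℝ, x = fun h => ‖squareSum N a h‖ / √W := ⟨_, rfl⟩
  have hx0 : ∀ h, 0 ≤ x h := fun h => hx ▸ div_nonneg (norm_nonneg _) (Real.sqrt_nonneg _)
  have hx1 : ∀ h, x h ≤ 1 := fun h => by
    rw [hx, div_le_one (Real.sqrt_pos.2 hWpos)]
    exact Real.le_sqrt_of_sq_le (hW ▸ norm_squareSum_sq_le N a h)
  suffices hx' : ∑ h ∈ range (2 * N ^ 2), x h ^ q ≤ C₄ + D by
    refine le_trans (le_of_eq ?_) (mul_le_mul_of_nonneg_right hx' (Real.rpow_nonneg hW0 _))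
    rw [sum_mul]
    refine sum_congr rfl fun h _ => ?_
    rw [hx]
    simp only
    rw [Real.div_rpow (norm_nonneg _) (Real.sqrt_nonneg _), Real.sqrt_eq_rpow,
      ← Real.rpow_mul hW0, show (1 / 2 : ℝ) * q = q / 2 by ring,
      div_mul_cancel₀ _ (Real.rpow_pos_of_pos hWpos _).ne']
  obtain ⟨e, he⟩ : ∃ e : ℝ, e = (N : ℝ) ^ (-(1 / 200) : ℝ) := ⟨_, rfl⟩
  have he0 : 0 < e := he ▸ by positivity
  rw [← sum_filter_add_sum_filter_not (range (2 * N ^ 2)) (fun h => x h < e)]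
  refine add_le_add ?_ ?_
  · refine (sum_le_sum (g := fun h => e ^ (q - 4) * x h ^ 4) fun h hh => ?_).trans ?_
    · rw [mem_filter] at hh
      rw [show q = q - 4 + ((4 : ℕ) : ℝ) by push_cast; ring,
        Real.rpow_add_natCast' (hx0 h) (by push_cast; linarith)]
      push_cast
      rw [sub_add_cancel]
      exact mul_le_mul_of_nonneg_right (Real.rpow_le_rpow (hx0 h) hh.2.le (by linarith))
        (pow_nonneg (hx0 h) _)
    rw [← mul_sum]
    have h2 : ∑ h ∈ (range (2 * N ^ 2)).filter (fun h => x h < e), x h ^ 4 ≤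
        C₄ * (N : ℝ) ^ ((q - 4) / 200) := by
      refine (sum_le_sum_of_subset_of_nonneg (filter_subset _ _)
        fun i _ _ => pow_nonneg (hx0 i) _).trans ?_
      simp only [hx, div_pow, ← sum_div]
      rw [div_le_iff₀ (by positivity), show √W ^ 4 = (√W ^ 2) ^ 2 by ring, Real.sq_sqrt hW0, hW]
      refine (hfourth N hN a).trans (le_of_eq ?_)
      rw [Real.rpow_add hN0, show (2 : ℝ) = ((2 : ℕ) : ℝ) by norm_num, Real.rpow_natCast]
      ring
    refine (mul_le_mul_of_nonneg_left h2 (by positivity)).trans (le_of_eq ?_)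
    rw [he, ← Real.rpow_mul hN0.le, mul_left_comm, ← Real.rpow_add hN0]
    ring_nf
    rw [Real.rpow_zero, mul_one]
  obtain ⟨I, hI⟩ := exists_pow_lt_of_lt_one he0 (show (1 / 2 : ℝ) < 1 by norm_num)
  obtain ⟨lev, hlev⟩ : ∃ lev : ℕ → ℝ, lev = fun n => (1 / 2) ^ (n + 1) := ⟨_, rfl⟩
  obtain ⟨S, hS⟩ : ∃ S : ℕ → Finset ℕ,
    S = fun n => (range (2 * N ^ 2)).filter fun h => lev n ≤ x h ∧ e ≤ x h := ⟨_, rfl⟩
  have hcover : ∀ h ∈ (range (2 * N ^ 2)).filter (fun h => ¬ x h < e), x h ^ q ≤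
      ∑ n ∈ range I, if h ∈ S n then (2 * lev n) ^ q else 0 := by
    intro h hh
    rw [mem_filter, not_lt] at hh
    obtain ⟨n, hn1, hn2⟩ := exists_nat_pow_near_of_lt_one (he0.trans_le hh.2) (hx1 h)
      (show (0 : ℝ) < 1 / 2 by norm_num) (by norm_num)
    have hnI : n < I := by
      by_contra hcon
      have := pow_le_pow_of_le_one (show (0 : ℝ) ≤ 1 / 2 by norm_num) (by norm_num) (not_lt.1 hcon)
      linarith
    refine le_trans ?_ (single_le_sum (fun i _ => ?_) (mem_range.2 hnI))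
    · rw [if_pos]
      · refine Real.rpow_le_rpow (hx0 h) ?_ (by linarith)
        rw [hlev]
        simp only [pow_succ]
        linarith
      · rw [hS, mem_filter, hlev]
        exact ⟨hh.1, hn1.le, hh.2⟩
    · split_ifs
      · exact Real.rpow_nonneg (by rw [hlev]; positivity) _
      · exact le_rfl
  have hcard : ∀ n, ((S n).card : ℝ) ≤ C' / lev n ^ γ := fun n => by
    have hlev0 : 0 < lev n := by rw [hlev]; positivity
    obtain ⟨d, hd⟩ : ∃ d, d = max (lev n) e := ⟨_, rfl⟩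
    have hd0 : 0 < d := hd ▸ lt_max_of_lt_left hlev0
    have hd1 : d ≤ 1 := by
      rw [hd, hlev]
      exact max_le (pow_le_one₀ (by norm_num) (by norm_num))
        (he ▸ Real.rpow_le_one_of_one_le_of_nonpos hN1 (by norm_num))
    have hdN : 1 ≤ (N : ℝ) * d ^ 200 := by
      refine le_trans (le_of_eq ?_) (mul_le_mul_of_nonneg_left
        (pow_le_pow_left₀ he0.le (hd ▸ le_max_right _ _) 200) hN0.le)
      rw [he, ← Real.rpow_natCast _ 200, ← Real.rpow_mul hN0.le]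
      norm_num
      rw [Real.rpow_neg_one, mul_inv_cancel₀ hN0.ne']
    have h1 := hlarge N hN a hB d hd0 hd1 hdN (S n) (hS ▸ filter_subset _ _) fun h hh => ?_
    · rw [le_div_iff₀ (Real.rpow_pos_of_pos hlev0 _)]
      refine le_trans (mul_le_mul_of_nonneg_left (Real.rpow_le_rpow hlev0.le
        (hd ▸ le_max_left _ _) hγ0) (Nat.cast_nonneg _)) ?_
      have h2 : (((S n).card : ℝ) * d ^ γ) ^ k ≤ C' := by
        rw [mul_pow, ← Real.rpow_natCast (d ^ γ), ← Real.rpow_mul hd0.le, hγ,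
          div_mul_cancel₀ _ hkR.ne', Real.rpow_natCast]
        exact h1.trans (hC' ▸ le_max_left _ _)
      rcases le_or_gt (((S n).card : ℝ) * d ^ γ) 1 with h3 | h3
      · linarith
      · exact (le_self_pow₀ h3.le (by omega)).trans h2
    · rw [hS, mem_filter] at hh
      have h2 : d ≤ x h := hd ▸ max_le hh.2.1 hh.2.2
      rw [hx, le_div_iff₀ (Real.sqrt_pos.2 hWpos)] at h2
      refine le_trans (le_of_eq ?_) (pow_le_pow_left₀ (by positivity) h2 2)
      rw [mul_pow, Real.sq_sqrt hW0, hW]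
  refine (sum_le_sum hcover).trans ?_
  rw [sum_comm]
  refine (sum_le_sum (g := fun n => C' * 2 ^ γ * ρ ^ n) fun n _ => ?_).trans ?_
  · refine (sum_le_sum_of_subset_of_nonneg (filter_subset _ _) fun i _ _ => ?_).trans ?_
    · split_ifs
      · exact Real.rpow_nonneg (by rw [hlev]; positivity) _
      · exact le_rfl
    rw [← sum_filter, sum_const, nsmul_eq_mul]
    refine (mul_le_mul_of_nonneg_right ((Nat.cast_le.2 (card_le_card fun h hh => ?_)).trans
      (hcard n)) (Real.rpow_nonneg (by rw [hlev]; positivity) _)).trans (le_of_eq ?_)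
    · exact (mem_filter.1 hh).2
    have hy : (0 : ℝ) < (1 / 2) ^ n := by positivity
    have e1 : 2 * lev n = (1 / 2) ^ n := by rw [hlev]; simp only [pow_succ]; ring
    have e2 : lev n = (1 / 2) ^ n / 2 := by rw [hlev]; simp only [pow_succ]; ring
    have e3 : ρ ^ n = ((1 / 2 : ℝ) ^ n) ^ (q - γ) := by
      rw [hρ, ← Real.rpow_natCast, ← Real.rpow_mul (by norm_num), ← Real.rpow_natCast,
        ← Real.rpow_mul (by norm_num), mul_comm]
    rw [e1, e2, e3, Real.div_rpow hy.le two_pos.le, div_div_eq_mul_div, Real.rpow_sub hy]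
    field_simp
  · rw [← mul_sum, hD, div_eq_mul_inv (C' * 2 ^ γ)]
    refine mul_le_mul_of_nonneg_left ?_ (by positivity)
    rw [← tsum_geometric_of_lt_one hρ0 hρ1]
    exact (summable_geometric_of_lt_one hρ0 hρ1).sum_le_tsum _ fun i _ => by positivity

/-- `∑_{n ≤ N} a n e (n ^ 2 t)`. -/
def squarePoly (N : ℕ) (a : ℕ → ℂ) (t : ℝ) : ℂ :=
  ∑ n ∈ Icc 1 N, a n * eAdd ((n : ℝ) ^ 2 * t)

/-- **Bourgain's restriction theorem for the squares.** -/
theorem exists_square_restriction {q : ℝ} (hq : 4 < q) : ∃ C : ℝ, 0 < C ∧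
    ∀ N : ℕ, 1 ≤ N → ∀ a : ℕ → ℂ, ∫ t in (0 : ℝ)..1, ‖squarePoly N a t‖ ^ q ≤
      C * ((N : ℝ) * energy N a) ^ (q / 2) / (N : ℝ) ^ 2 := by
  classical
  obtain ⟨C, hC, h⟩ := exists_grid_restriction hq
  refine ⟨C, hC, fun N hN a => ?_⟩
  obtain ⟨c, hc⟩ : ∃ c : ℕ → ℂ, c = fun m =>
      if Nat.sqrt m * Nat.sqrt m = m then a (Nat.sqrt m) else 0 := ⟨_, rfl⟩
  have hre : ∀ (b : ℕ → ℂ), (∀ m, ‖b m‖ = ‖c m‖) → ∀ F : ℕ → ℂ,
      ∑ m ∈ Icc 1 (2 * N ^ 2), (if m ≤ N ^ 2 then b m else 0) * F m =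
        ∑ n ∈ Icc 1 N, b (n ^ 2) * F (n ^ 2) := by
    intro b hb F
    rw [← sum_image (g := fun n => n ^ 2) (f := fun m => b m * F m)
      fun x _ y _ e => Nat.pow_left_injective two_ne_zero e]
    simp only [ite_mul, zero_mul]
    rw [← sum_filter]
    refine (sum_subset (fun m hm => ?_) fun m hm hm' => ?_).symm
    · obtain ⟨n, hn, rfl⟩ := mem_image.1 hm
      rw [mem_Icc] at hn
      simp only [mem_filter, mem_Icc]
      exact ⟨⟨Nat.one_le_pow 2 n hn.1, by have := Nat.pow_le_pow_left hn.2 2; omega⟩,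
        Nat.pow_le_pow_left hn.2 2⟩
    · have : b m = 0 := by
        rw [← norm_eq_zero, hb, norm_eq_zero, hc]
        refine if_neg fun hsq => hm' (mem_image.2 ⟨Nat.sqrt m, ?_, (sq _).trans hsq⟩)
        simp only [mem_filter, mem_Icc] at hm
        rw [mem_Icc]
        refine ⟨Nat.sqrt_pos.2 hm.1.1, ?_⟩
        rw [← Nat.pow_le_pow_iff_left (n := 2) two_ne_zero, sq, hsq]
        exact hm.2
      rw [this, zero_mul]
  obtain ⟨d, hd⟩ : ∃ d : ℕ → ℂ, d = fun m => if m ≤ N ^ 2 then c m else 0 := ⟨_, rfl⟩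
  have hca : ∀ n, c (n ^ 2) = a n := fun n => by
    rw [hc]
    simp [sq]
  have e : ∀ t : ℝ, squarePoly N a t = ∑ m ∈ Icc 1 (2 * N ^ 2), d m * eAdd ((m : ℝ) * t) :=
    fun t => by
      simp only [hd]
      rw [hre c (fun _ => rfl) fun m => eAdd ((m : ℝ) * t), squarePoly]
      exact sum_congr rfl fun n _ => by rw [hca]; push_cast; rfl
  simp only [e]
  have hN0 : (0 : ℝ) < N := Nat.cast_pos.2 hN
  refine (PrimeRestriction.integral_le_of_grid (show 0 < 2 * N ^ 2 by positivity) (by linarith) d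
    (D := C * ((N : ℝ) * energy N a) ^ (q / 2)) fun d' hd' => ?_).trans ?_
  · obtain ⟨b, hb⟩ : ∃ b : ℕ → ℂ, b = fun m => if m ≤ N ^ 2 then d' m else c m := ⟨_, rfl⟩
    have hbc : ∀ m, ‖b m‖ = ‖c m‖ := fun m => by
      rw [hb]
      simp only
      split_ifs with hm
      · rw [hd', hd]
        simp [hm]
      · rfl
    have e2 : ∀ F : ℕ → ℂ, ∑ m ∈ Icc 1 (2 * N ^ 2), d' m * F m =
        ∑ n ∈ Icc 1 N, b (n ^ 2) * F (n ^ 2) := fun F => by
      rw [← hre b hbc F]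
      refine sum_congr rfl fun m _ => ?_
      rw [hb]
      by_cases hm : m ≤ N ^ 2
      · simp [hm]
      · have : d' m = 0 := by
          rw [← norm_eq_zero, hd', hd]
          simp [hm]
        simp [hm, this]
    have h1 := h N hN fun n => b (n ^ 2)
    have hen : energy N (fun n => b (n ^ 2)) = energy N a := by
      simp only [energy, hbc, hca]
    rw [hen] at h1
    refine le_trans (le_of_eq (sum_congr rfl fun x _ => ?_)) h1
    rw [e2 fun m => eAdd ((m : ℝ) * x / ((2 * N ^ 2 : ℕ) : ℝ)), squareSum]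
    exact congrArg (fun z : ℂ => ‖z‖ ^ q) (sum_congr rfl fun n _ => by push_cast; rfl)
  · refine div_le_div_of_nonneg_left (mul_nonneg hC.le (Real.rpow_nonneg
      (mul_nonneg hN0.le (energy_nonneg N a)) _)) (by positivity) ?_
    push_cast
    linarith [sq_nonneg (N : ℝ)]

/-- **The moments of the quadratic exponential sum.** -/
theorem exists_square_moment {q : ℝ} (hq : 4 < q) : ∃ C : ℝ, 0 < C ∧ ∀ N : ℕ, 1 ≤ N →
    ∫ t in (0 : ℝ)..1, ‖squarePoly N (fun _ => 1) t‖ ^ q ≤ C * (N : ℝ) ^ (q - 2) := by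
  obtain ⟨C, hC, h⟩ := exists_square_restriction hq
  refine ⟨C, hC, fun N hN => (h N hN fun _ => 1).trans (le_of_eq ?_)⟩
  have hN0 : (0 : ℝ) < N := Nat.cast_pos.2 hN
  simp only [energy, norm_one, one_pow, sum_const, Nat.card_Icc, Nat.add_sub_cancel,
    nsmul_eq_mul, mul_one]
  rw [Real.mul_rpow hN0.le hN0.le, ← Real.rpow_add hN0, add_halves, Real.rpow_sub hN0,
    show (2 : ℝ) = ((2 : ℕ) : ℝ) by norm_num, Real.rpow_natCast]
  ring

end FA.SquareRestriction
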