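import Fermat.Agent.PrimeRestriction.Main
import Fermat.Agent.WaringAsymptotic.Minor
import Fermat.Agent.WaringAsymptotic.Major

/-!
# A majorant for the quadratic exponential sum

`|∑_{n ≤ N} e (n ^ 2 α)| ^ 2` is at most `N ^ 2` times a small error plus the combination of Fejér
kernels of the grid `h / (2 N ^ 2)`: the complete sums modulo `q` are at most `√(2 q)`.
-/

set_option autoImplicit false

noncomputable section

namespace FA.SquareRestriction

open Finset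
open FA.ThreePrimes (eAdd nearDist clip arcCentres centre mem_arcCentres unitResidues)
open FA.WaringAsymptotic (waringSum completeSum densityFactor weightSum rootFloor weylSaving)
open FA.PrimeRestriction (arcKernel arcKernel_nonneg le_arcKernel)
open scoped Real ComplexConjugate

/-- **The quadratic Gauss sum** is at most `√(2 q)`. -/
theorem norm_completeSum_two_sq_le {q : ℕ} [NeZero q] {a : ℤ} (ha : IsUnit (a : ZMod q)) :
    ‖completeSum 2 q a‖ ^ 2 ≤ 2 * q := by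
  classical
  obtain ⟨ψ, hψ⟩ : ∃ ψ, ψ = (ZMod.stdAddChar : AddChar (ZMod q) ℂ) := ⟨_, rfl⟩
  have hψ1 : ∀ x, ‖ψ x‖ = 1 := fun x => hψ ▸ AddChar.norm_apply _ x
  obtain ⟨b, hb⟩ : ∃ b : ZMod q, b = (a : ZMod q) := ⟨_, rfl⟩
  rw [← hb] at ha
  have key : ((‖completeSum 2 q a‖ ^ 2 : ℝ) : ℂ) =
      ∑ h : ZMod q, ψ (b * h ^ 2) * ∑ y : ZMod q, ψ (y * (2 * b * h)) := by
    rw [Complex.ofReal_pow, ← Complex.mul_conj', WaringAsymptotic.completeSum_eq_zmod, ← hψ, ← hb,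
      map_sum, sum_mul_sum, sum_comm]
    simp only [mul_sum]
    rw [sum_comm (f := fun h y => ψ (b * h ^ 2) * ψ (y * (2 * b * h)))]
    refine sum_congr rfl fun y _ => ?_
    rw [← Equiv.sum_comp (Equiv.addRight y) fun x => ψ (b * x ^ 2) * conj (ψ (b * y ^ 2))]
    refine sum_congr rfl fun h _ => ?_
    rw [Equiv.coe_addRight, ← AddChar.map_neg_eq_conj, ← AddChar.map_add_eq_mul,
      ← AddChar.map_add_eq_mul]
    congr 1
    ring
  have hcard : (univ.filter fun h : ZMod q => 2 * b * h = 0).card ≤ 2 := by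
    refine (card_le_card_of_injOn (t := range 2) (fun h : ZMod q => 2 * h.val / q)
      (fun h _ => ?_) fun x hx y hy hxy => ?_).trans (card_range 2).le
    · simp only [mem_coe, mem_range]
      rw [Nat.div_lt_iff_lt_mul (NeZero.pos q)]
      have := ZMod.val_lt h
      omega
    · simp only [mem_coe, mem_filter, mem_univ, true_and] at hx hy
      have h2 : ∀ z : ZMod q, 2 * b * z = 0 → q ∣ 2 * z.val := fun z hz => by
        rw [← ZMod.natCast_eq_zero_iff]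
        push_cast
        rw [ZMod.natCast_zmod_val]
        rw [show 2 * b * z = b * (2 * z) by ring] at hz
        exact ha.mul_right_eq_zero.1 hz
      obtain ⟨u, hu⟩ := h2 x hx
      obtain ⟨v, hv⟩ := h2 y hy
      simp only at hxy
      rw [hu, hv, Nat.mul_div_cancel_left _ (NeZero.pos q),
        Nat.mul_div_cancel_left _ (NeZero.pos q)] at hxy
      subst hxy
      exact ZMod.val_injective q (by omega)
  have hsum : ∀ h : ZMod q, ‖∑ y : ZMod q, ψ (y * (2 * b * h))‖ ≤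
      if 2 * b * h = 0 then (q : ℝ) else 0 := fun h => by
    rw [hψ, AddChar.sum_mulShift _ (ZMod.isPrimitive_stdAddChar q), ZMod.card]
    split_ifs <;> simp
  refine le_trans (le_of_eq (Complex.norm_of_nonneg (sq_nonneg ‖completeSum 2 q a‖)).symm) ?_
  rw [key]
  refine (norm_sum_le _ _).trans ((sum_le_sum fun h _ => ?_).trans (b :=
    ∑ h : ZMod q, if 2 * b * h = 0 then (q : ℝ) else 0) ?_)
  · rw [norm_mul, hψ1, one_mul]
    exact hsum h
  · rw [← sum_filter, sum_const, nsmul_eq_mul]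
    exact mul_le_mul_of_nonneg_right (by exact_mod_cast hcard) (Nat.cast_nonneg q)

theorem norm_weightSum_sq_le_clip {N : ℕ} (x : ℝ) :
    ‖weightSum (1 / ((2 : ℕ) : ℝ)) (N ^ 2) x‖ ^ 2 ≤ 36 * clip ((2 * N ^ 2 : ℕ) : ℝ) x := by
  obtain ⟨d, hd⟩ : ∃ d, d = nearDist x := ⟨_, rfl⟩
  have h1 : ‖weightSum (1 / ((2 : ℕ) : ℝ)) (N ^ 2) x‖ ^ 2 ≤ (N : ℝ) ^ 2 := by
    refine pow_le_pow_left₀ (norm_nonneg _)
      ((WaringAsymptotic.norm_weightSum_le (by norm_num) (by norm_num) _ x).trans (le_of_eq ?_)) 2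
    push_cast
    rw [← Real.sqrt_eq_rpow, Real.sqrt_sq (Nat.cast_nonneg N)]
  have h2 : (N : ℝ) ^ 2 ≤ 36 * ((2 * N ^ 2 : ℕ) : ℝ) := by
    push_cast
    linarith [sq_nonneg (N : ℝ)]
  rw [clip, ← hd]
  split_ifs with h
  · exact h1.trans h2
  have hd0 : 0 < d := lt_of_le_of_ne (hd ▸ ThreePrimes.nearDist_nonneg x) (Ne.symm h)
  rcases le_total ((2 * N ^ 2 : ℕ) : ℝ) (1 / (2 * d)) with hm | hm
  · rw [min_eq_left hm]
    exact h1.trans h2
  rw [min_eq_right hm]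
  refine (pow_le_pow_left₀ (norm_nonneg _) (WaringAsymptotic.norm_weightSum_le_inv
    (c := 1 / ((2 : ℕ) : ℝ)) (by norm_num) (by norm_num) (N ^ 2) (hd ▸ hd0)) 2).trans ?_
  rw [← hd, mul_pow, ← Real.rpow_natCast (d ^ _), ← Real.rpow_mul hd0.le,
    show -(1 / ((2 : ℕ) : ℝ)) * ((2 : ℕ) : ℝ) = -1 by norm_num, Real.rpow_neg_one,
    show 36 * (1 / (2 * d)) = 18 * d⁻¹ by field_simp; ring]
  exact mul_le_mul_of_nonneg_right (by norm_num) (inv_nonneg.2 hd0.le)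

/-- **The majorant of the quadratic sum.** -/
theorem exists_square_sum_le : ∃ C : ℝ, 0 < C ∧ ∀ N U J : ℕ, 1 ≤ N → 1 ≤ U → U ≤ 2 ^ J →
    2 ^ (J + 4) ≤ 2 * N ^ 2 → ∀ α : ℝ, ‖waringSum 2 N α‖ ^ 2 ≤
      (N : ℝ) ^ 2 * (C / U + C / (N : ℝ) ^ (1 / 20 : ℝ) + C * arcKernel (2 * N ^ 2) U J α) := by
  obtain ⟨C₁, hC₁, hmin⟩ := WaringAsymptotic.exists_minor_sup (k := 2) le_rfl
  refine ⟨C₁ ^ 2 + 10368 + 288, by positivity, fun N U J hN hU hUJ hJ α => ?_⟩
  obtain ⟨C, hC⟩ : ∃ C : ℝ, C = C₁ ^ 2 + 10368 + 288 := ⟨_, rfl⟩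
  rw [← hC]
  have hC0 : 0 < C := hC ▸ by positivity
  have hN1 : (1 : ℝ) ≤ N := by exact_mod_cast hN
  have hN0 : (0 : ℝ) < N := by linarith
  have hK := arcKernel_nonneg (2 * N ^ 2) U J α
  have hU1 : (1 : ℝ) ≤ U := by exact_mod_cast hU
  obtain ⟨W, hW⟩ : ∃ W, W = (N : ℝ) ^ (1 / 20 : ℝ) := ⟨_, rfl⟩
  have hW0 : 0 < W := hW ▸ by positivity
  rw [← hW]
  by_cases hout : ∀ z ∈ arcCentres ⌊(N : ℝ) ^ (1 / 10 : ℝ)⌋₊,
      (N : ℝ) ^ (1 / 10 : ℝ) / ((N ^ 2 : ℕ) : ℝ) < nearDist (α - centre z)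
  · refine (pow_le_pow_left₀ (norm_nonneg _) (hmin (N ^ 2) N α hN le_rfl
      (Nat.pow_lt_pow_left (Nat.lt_succ_self N) two_ne_zero) hout) 2).trans ?_
    have e : ((N : ℝ) ^ (1 - weylSaving 2)) ^ 2 = (N : ℝ) ^ 2 / W := by
      rw [hW, eq_div_iff (by positivity), ← Real.rpow_natCast, ← Real.rpow_mul hN0.le,
        ← Real.rpow_add hN0, weylSaving, ← Real.rpow_natCast (N : ℝ) 2]
      norm_num
    rw [mul_pow, e, mul_div_assoc', mul_comm (C₁ ^ 2), mul_div_assoc]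
    refine mul_le_mul_of_nonneg_left ?_ (sq_nonneg _)
    have : C₁ ^ 2 / W ≤ C / W := div_le_div_of_nonneg_right (by rw [hC]; linarith) hW0.le
    have : 0 ≤ C / (U : ℝ) + C * arcKernel (2 * N ^ 2) U J α := by positivity
    linarith
  push Not at hout
  obtain ⟨⟨q, r⟩, hz, hdist⟩ := hout
  obtain ⟨⟨hq, hqP⟩, hr, hcop⟩ := mem_arcCentres.1 hz
  simp only at hq hqP hr hcop
  have : NeZero q := ⟨by omega⟩
  have hq0 : (0 : ℝ) < q := Nat.cast_pos.2 hq
  obtain ⟨R, hR⟩ : ∃ R, R = (N : ℝ) ^ (1 / 10 : ℝ) := ⟨_, rfl⟩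
  rw [← hR] at hdist hqP
  have hR1 : 1 ≤ R := hR ▸ Real.one_le_rpow hN1 (by norm_num)
  have hqR : (q : ℝ) ≤ R := (Nat.cast_le.2 hqP).trans (Nat.floor_le (by linarith))
  obtain ⟨β, hβ⟩ : ∃ β, β = α - (r : ℝ) / q - (round (α - (r : ℝ) / q) : ℝ) := ⟨_, rfl⟩
  have hβd : |β| = nearDist (α - (r : ℝ) / q) := by rw [nearDist, hβ]
  have e : waringSum 2 N α = waringSum 2 N (((r : ℤ) : ℝ) / q + β) := by
    refine sum_congr rfl fun n _ => ?_
    rw [← ThreePrimes.eAdd_add_intCast ((((r : ℤ) : ℝ) / q + β) * (n : ℝ) ^ 2)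
      (round (α - (r : ℝ) / q) * (n : ℤ) ^ 2), hβ]
    push_cast
    ring_nf
  have hroot : rootFloor 2 (N ^ 2) = N := by
    obtain ⟨h1, h2, h3⟩ :=
      WaringAsymptotic.rootFloor_spec (k := 2) (by norm_num) (Nat.one_le_pow 2 N hN)
    have a := (Nat.pow_le_pow_iff_left two_ne_zero).1 h2
    have b := (Nat.pow_lt_pow_iff_left two_ne_zero).1 h3
    omega
  have hsub := WaringAsymptotic.norm_waringSum_sub_le (k := 2) (N := N ^ 2) (q := q) (by norm_num)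
    (Nat.one_le_pow 2 N hN) hq (r : ℤ) β
  rw [hroot, ← e] at hsub
  have herr : 8 * (q : ℝ) * (1 + 2 * π * |β| * ((N ^ 2 : ℕ) : ℝ)) ≤ 72 * R ^ 2 := by
    have h1 : |β| * ((N ^ 2 : ℕ) : ℝ) ≤ R := by
      rw [hβd]
      exact (le_div_iff₀ (Nat.cast_pos.2 (pow_pos hN 2))).1 hdist
    have h2 : 1 + 2 * π * |β| * ((N ^ 2 : ℕ) : ℝ) ≤ 9 * R := by
      have := mul_le_mul_of_nonneg_left h1 (show (0 : ℝ) ≤ 2 * π by positivity)
      have := mul_le_mul_of_nonneg_right Real.pi_le_four (show (0 : ℝ) ≤ R by linarith)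
      linarith
    calc 8 * (q : ℝ) * (1 + 2 * π * |β| * ((N ^ 2 : ℕ) : ℝ)) ≤ 8 * R * (9 * R) :=
          mul_le_mul (mul_le_mul_of_nonneg_left hqR (by norm_num)) h2 (by positivity)
            (by positivity)
      _ = _ := by ring
  have hnd : nearDist β = nearDist (α - (r : ℝ) / q) := by
    rw [hβ, show α - (r : ℝ) / q - (round (α - (r : ℝ) / q) : ℝ) =
      α - (r : ℝ) / q + ((-round (α - (r : ℝ) / q) : ℤ) : ℝ) by push_cast; ring,
      ThreePrimes.nearDist_add_intCast]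
  obtain ⟨Y, hY⟩ : ∃ Y, Y = clip ((2 * N ^ 2 : ℕ) : ℝ) (α - (r : ℝ) / q) := ⟨_, rfl⟩
  have hY0 : 0 ≤ Y := hY ▸ ThreePrimes.clip_nonneg (Nat.cast_nonneg _) _
  have hclipβ : clip ((2 * N ^ 2 : ℕ) : ℝ) β = Y := by rw [hY, clip, clip, hnd]
  have hmain : ‖densityFactor 2 q (r : ℤ) * weightSum (1 / ((2 : ℕ) : ℝ)) (N ^ 2) β‖ ^ 2 ≤
      2 / q * (36 * Y) := by
    rw [norm_mul, mul_pow]
    refine mul_le_mul ?_ (hclipβ ▸ norm_weightSum_sq_le_clip β) (sq_nonneg _) (by positivity)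
    rw [densityFactor, norm_div, Complex.norm_natCast, div_pow,
      div_le_div_iff₀ (by positivity) hq0, sq (q : ℝ), ← mul_assoc]
    refine mul_le_mul_of_nonneg_right (norm_completeSum_two_sq_le ?_) hq0.le
    rw [Int.cast_natCast]
    exact (ZMod.isUnit_iff_coprime r q).2 hcop.symm
  have hV : ‖waringSum 2 N α‖ ^ 2 ≤ 144 * (Y / q) + 10368 * R ^ 4 := by
    refine (pow_le_pow_left₀ (norm_nonneg _) ((norm_le_norm_add_norm_sub' _ _).trans
      (add_le_add le_rfl (hsub.trans herr))) 2).trans (add_sq_le.trans ?_)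
    refine (mul_le_mul_of_nonneg_left (add_le_add hmain le_rfl) two_pos.le).trans (le_of_eq ?_)
    ring
  refine hV.trans ?_
  have hR4 : 10368 * R ^ 4 ≤ (N : ℝ) ^ 2 * (C / W) := by
    rw [mul_div_assoc', le_div_iff₀ hW0]
    have h1 : R ^ 4 * W ≤ (N : ℝ) ^ 2 := by
      rw [hR, hW, ← Real.rpow_natCast _ 4, ← Real.rpow_mul hN0.le, ← Real.rpow_add hN0,
        ← Real.rpow_natCast (N : ℝ) 2]
      exact Real.rpow_le_rpow_of_exponent_le hN1 (by norm_num)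
    calc 10368 * R ^ 4 * W = 10368 * (R ^ 4 * W) := by ring
      _ ≤ C * (N : ℝ) ^ 2 := mul_le_mul (by rw [hC]; linarith [sq_nonneg C₁]) h1
          (by positivity) hC0.le
      _ = _ := mul_comm _ _
  suffices hY' : 144 * (Y / q) ≤ (N : ℝ) ^ 2 * (C / U + C * arcKernel (2 * N ^ 2) U J α) by
    linarith
  have hM0 : (0 : ℝ) < ((2 * N ^ 2 : ℕ) : ℝ) := by exact_mod_cast (show 0 < 2 * N ^ 2 by positivity)
  have hYM : 144 * (Y / q) = (N : ℝ) ^ 2 * (288 * ((q : ℝ)⁻¹ * (Y / ((2 * N ^ 2 : ℕ) : ℝ)))) := by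
    push_cast
    field_simp
    ring
  rw [hYM]
  refine mul_le_mul_of_nonneg_left ?_ (sq_nonneg _)
  have h288 : 288 ≤ C := by rw [hC]; linarith [sq_nonneg C₁]
  by_cases hsm : q ≤ U ∧ nearDist (α - (r : ℝ) / q) * ((2 * N ^ 2 : ℕ) : ℝ) ≤ U
  · have h1 := le_arcKernel hJ hUJ hq hsm.1 hr hsm.2
    rw [← hY] at h1
    refine le_add_of_nonneg_of_le (by positivity) (mul_le_mul h288 (le_trans ?_ h1)
      (by positivity) hC0.le)
    refine mul_le_mul_of_nonneg_right ?_ (by positivity)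
    exact inv_anti₀ (Nat.cast_pos.2 (Nat.totient_pos.2 hq)) (Nat.cast_le.2 (Nat.totient_le q))
  · refine le_add_of_le_of_nonneg ?_ (by positivity)
    rw [div_eq_mul_inv C]
    refine mul_le_mul h288 ?_ (by positivity) hC0.le
    rcases not_and_or.1 hsm with hs | hs
    · refine (mul_le_of_le_one_right (by positivity) ?_).trans
        (inv_anti₀ (by positivity) (Nat.cast_le.2 (not_le.1 hs).le))
      rw [div_le_one hM0, hY]
      exact ThreePrimes.clip_le _ _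
    · rw [not_le, ← div_lt_iff₀ hM0] at hs
      have h1 := ThreePrimes.clip_le_inv (Z := ((2 * N ^ 2 : ℕ) : ℝ))
        (show 0 < (U : ℝ) / ((2 * N ^ 2 : ℕ) : ℝ) by positivity) hs.le
      rw [← hY] at h1
      refine (mul_le_of_le_one_left (by positivity)
        (inv_le_one_of_one_le₀ (by exact_mod_cast hq))).trans ?_
      rw [div_le_iff₀ hM0]
      refine h1.trans ?_
      rw [one_div, mul_inv, inv_div]
      have : 0 ≤ (U : ℝ)⁻¹ * ((2 * N ^ 2 : ℕ) : ℝ) := by positivity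
      rw [div_eq_mul_inv, mul_comm ((2 * N ^ 2 : ℕ) : ℝ)]
      linarith

end FA.SquareRestriction
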