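import Fermat.Agent.SquareRestriction.Main

/-!
# Threefold sumsets of dense sets of squares

For a set of `η N` integers up to `N` there are at least `c η ^ (2 + ε) N ^ 2` sums of three of
their squares: the restriction theorem at the exponent `4 + 2 ε` bounds the sixth moment.
-/

set_option autoImplicit false

noncomputable section

namespace FA.SquareRestriction

open Finset
open FA.ThreePrimes (eAdd)
open FA.PrimeRestriction (energy sum_norm_sq_full)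
open scoped Real

/-- The ordered representations as a sum of three squares from `A`. -/
def tripleReps (A : Finset ℕ) (s : ℕ) : ℕ :=
  ((A ×ˢ (A ×ˢ A)).filter fun x => x.1 ^ 2 + (x.2.1 ^ 2 + x.2.2 ^ 2) = s).card

/-- The sums of three squares from `A`. -/
def squareTriples (A : Finset ℕ) : Finset ℕ :=
  (A ×ˢ (A ×ˢ A)).image fun x => x.1 ^ 2 + (x.2.1 ^ 2 + x.2.2 ^ 2)

/-- **The sixth moment is the energy.** -/
theorem sum_pow_six_eq {N : ℕ} (hN : 0 < N) {A : Finset ℕ} (hA : A ⊆ Icc 1 N) :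
    ∑ h ∈ range (2 * (2 * N) ^ 2),
      ‖∑ n ∈ A, eAdd ((n : ℝ) ^ 2 * h / ((2 * (2 * N) ^ 2 : ℕ) : ℝ))‖ ^ 6 =
      ((2 * (2 * N) ^ 2 : ℕ) : ℝ) * ∑ s ∈ squareTriples A, (tripleReps A s : ℝ) ^ 2 := by
  classical
  obtain ⟨M, hM⟩ : ∃ M, M = 2 * (2 * N) ^ 2 := ⟨_, rfl⟩
  rw [← hM]
  have hmaps : ∀ x ∈ A ×ˢ (A ×ˢ A), x.1 ^ 2 + (x.2.1 ^ 2 + x.2.2 ^ 2) ∈ Icc 1 M := fun x hx => by
    simp only [mem_product] at hx
    have h1 := mem_Icc.1 (hA hx.1)
    have h2 := mem_Icc.1 (hA hx.2.1)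
    have h3 := mem_Icc.1 (hA hx.2.2)
    have a1 := Nat.pow_le_pow_left h1.2 2
    have a2 := Nat.pow_le_pow_left h2.2 2
    have a3 := Nat.pow_le_pow_left h3.2 2
    have a0 := Nat.one_le_pow 2 x.1 h1.1
    have a4 : (2 * N) ^ 2 = 4 * N ^ 2 := by ring
    rw [mem_Icc]
    omega
  have e : ∀ h : ℕ, (∑ n ∈ A, eAdd ((n : ℝ) ^ 2 * h / (M : ℝ))) ^ 3 =
      ∑ s ∈ Icc 1 M, (tripleReps A s : ℂ) * eAdd ((s : ℝ) * h / (M : ℝ)) := by
    intro h
    rw [pow_three, sum_mul_sum (f := fun i : ℕ => eAdd ((i : ℝ) ^ 2 * h / (M : ℝ))), ← sum_product',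
      sum_mul_sum, ← sum_product', ← sum_fiberwise_of_maps_to hmaps]
    refine sum_congr rfl fun s _ => ?_
    rw [tripleReps, ← nsmul_eq_mul, ← sum_const]
    refine sum_congr rfl fun x hx => ?_
    rw [← (mem_filter.1 hx).2, ← ThreePrimes.eAdd_add, ← ThreePrimes.eAdd_add]
    push_cast
    ring_nf
  have e2 : ∀ h : ℕ, ‖∑ n ∈ A, eAdd ((n : ℝ) ^ 2 * h / (M : ℝ))‖ ^ 6 =
      ‖∑ s ∈ Icc 1 M, (tripleReps A s : ℂ) * eAdd ((s : ℝ) * h / (M : ℝ))‖ ^ 2 :=
    fun h => by rw [← e, norm_pow, ← pow_mul]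
  simp only [e2]
  rw [sum_norm_sq_full (hM ▸ by positivity)]
  refine congrArg _ ?_
  simp only [Complex.norm_natCast]
  refine (sum_subset (fun s hs => ?_) fun s _ hs' => ?_).symm
  · obtain ⟨x, hx, rfl⟩ := mem_image.1 hs
    exact hmaps x hx
  · have : tripleReps A s = 0 := by
      rw [tripleReps, card_eq_zero, filter_eq_empty_iff]
      exact fun x hx hxs => hs' (mem_image.2 ⟨x, hx, hxs⟩)
    simp [this]

/-- The Cauchy–Schwarz inequality. -/
theorem card_pow_six_le (A : Finset ℕ) :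
    (A.card : ℝ) ^ 6 ≤ (squareTriples A).card *
      ∑ s ∈ squareTriples A, (tripleReps A s : ℝ) ^ 2 := by
  classical
  refine le_trans (le_of_eq ?_) sq_sum_le_card_mul_sum_sq
  have h : ∑ s ∈ squareTriples A, tripleReps A s = A.card * (A.card * A.card) := by
    simp only [tripleReps, squareTriples]
    rw [← card_eq_sum_card_fiberwise fun x hx => mem_image_of_mem _ hx, card_product, card_product]
  have h' : ∑ s ∈ squareTriples A, (tripleReps A s : ℝ) =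
      (A.card : ℝ) * ((A.card : ℝ) * A.card) := by exact_mod_cast h
  rw [h']
  ring

/-- **Threefold sumsets of squares.** -/
theorem exists_triples_ge {ε : ℝ} (hε : 0 < ε) (hε1 : ε ≤ 1) : ∃ c : ℝ, 0 < c ∧
    ∀ N : ℕ, 1 ≤ N → ∀ A : Finset ℕ, A ⊆ Icc 1 N →
      c * (N : ℝ) ^ 2 * ((A.card : ℝ) / N) ^ (2 + ε) ≤ (squareTriples A).card := by
  classical
  obtain ⟨q, hq⟩ : ∃ q : ℝ, q = 4 + 2 * ε := ⟨_, rfl⟩
  obtain ⟨C, hC, hgrid⟩ := exists_grid_restriction (q := q) (by linarith)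
  refine ⟨8 / (C * 2 ^ (2 + ε)), by positivity, fun N hN A hA => ?_⟩
  obtain ⟨S, hS⟩ : ∃ S : ℝ, S = ((squareTriples A).card : ℝ) := ⟨_, rfl⟩
  rw [← hS]
  obtain ⟨m, hm⟩ : ∃ m : ℝ, m = A.card := ⟨_, rfl⟩
  rw [← hm]
  have hS0 : 0 ≤ S := hS ▸ Nat.cast_nonneg _
  rcases (hm ▸ Nat.cast_nonneg _ : (0 : ℝ) ≤ m).eq_or_lt with h | h
  · rw [← h, zero_div, Real.zero_rpow (by linarith), mul_zero]
    exact hS0
  obtain ⟨M, hM⟩ : ∃ M : ℝ, M = ((2 * (2 * N) ^ 2 : ℕ) : ℝ) := ⟨_, rfl⟩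
  have hN0 : (0 : ℝ) < N := Nat.cast_pos.2 hN
  have hM8 : M = 8 * (N : ℝ) ^ 2 := by rw [hM]; push_cast; ring
  have hM0 : 0 < M := by rw [hM8]; positivity
  obtain ⟨c, hc⟩ : ∃ c : ℕ → ℂ, c = fun n => if n ∈ A then 1 else 0 := ⟨_, rfl⟩
  obtain ⟨f, hf⟩ : ∃ f : ℕ → ℂ,
      f = fun h : ℕ => ∑ n ∈ A, eAdd ((n : ℝ) ^ 2 * h / M) := ⟨_, rfl⟩
  have hsub : (Icc 1 (2 * N)).filter (fun n => n ∈ A) = A := by
    ext n
    simp only [mem_filter]
    refine ⟨fun h => h.2, fun h => ⟨?_, h⟩⟩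
    have := mem_Icc.1 (hA h)
    rw [mem_Icc]
    omega
  have hfc : ∀ h : ℕ, squareSum (2 * N) c h = f h := fun h => by
    rw [squareSum, ← hM]
    simp only [hc, hf, ite_mul, one_mul, zero_mul]
    rw [← sum_filter, hsub]
  have hen : energy (2 * N) c = m := by
    have e : ∀ n, ‖c n‖ ^ 2 = if n ∈ A then (1 : ℝ) else 0 := fun n => by
      rw [hc]
      by_cases h : n ∈ A <;> simp [h]
    simp only [energy, e]
    rw [← sum_filter, hsub, sum_const, nsmul_eq_mul, mul_one, hm]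
  have hq' := hgrid (2 * N) (by omega) c
  simp only [hfc, hen] at hq'
  have h6 : ∑ h ∈ range (2 * (2 * N) ^ 2), ‖f h‖ ^ 6 ≤
      m ^ (6 - q) * (C * (((2 * N : ℕ) : ℝ) * m) ^ (q / 2)) := by
    refine (sum_le_sum (g := fun h => m ^ (6 - q) * ‖f h‖ ^ q) fun x _ => ?_).trans ?_
    · have h1 : ‖f x‖ ≤ m := by
        rw [hf, hm]
        refine (norm_sum_le _ _).trans (le_of_eq ?_)
        simp [ThreePrimes.norm_eAdd]
      rw [← Real.rpow_natCast, show ((6 : ℕ) : ℝ) = (6 - q) + q by push_cast; ring,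
        Real.rpow_add' (norm_nonneg _) (by linarith)]
      exact mul_le_mul_of_nonneg_right (Real.rpow_le_rpow (norm_nonneg _) h1 (by linarith))
        (Real.rpow_nonneg (norm_nonneg _) _)
    · rw [← mul_sum]
      exact mul_le_mul_of_nonneg_left hq' (Real.rpow_nonneg h.le _)
  obtain ⟨E, hE⟩ : ∃ E : ℝ, E = ((2 * N : ℕ) : ℝ) * m := ⟨_, rfl⟩
  have hE0 : 0 < E := hE ▸ mul_pos (Nat.cast_pos.2 (by omega)) h
  rw [← hE] at h6
  have hkey : m ^ 6 * M ≤ S * (m ^ (6 - q) * (C * E ^ (q / 2))) := by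
    have h1 := card_pow_six_le A
    rw [← hm, ← hS] at h1
    refine (mul_le_mul_of_nonneg_right h1 hM0.le).trans ?_
    rw [mul_assoc]
    refine mul_le_mul_of_nonneg_left (le_trans (le_of_eq ?_) h6) hS0
    rw [hf, hM, sum_pow_six_eq hN hA, mul_comm]
  have hq2 : q / 2 = 2 + ε := by linarith
  obtain ⟨x, hx⟩ : ∃ x, x = m / ((2 * N : ℕ) : ℝ) := ⟨_, rfl⟩
  have hN2 : (0 : ℝ) < ((2 * N : ℕ) : ℝ) := Nat.cast_pos.2 (by omega)
  have hx0 : 0 < x := hx ▸ div_pos h hN2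
  have hmain : M * x ^ (2 + ε) ≤ S * C := by
    refine le_of_mul_le_mul_left ?_ (show 0 < m ^ (6 - q) * E ^ (q / 2) by positivity)
    calc m ^ (6 - q) * E ^ (q / 2) * (M * x ^ (2 + ε))
        = m ^ (6 - q) * (E ^ (q / 2) * x ^ (q / 2)) * M := by rw [hq2]; ring
      _ = m ^ (6 - q) * m ^ q * M := by
          rw [← Real.mul_rpow hE0.le hx0.le, hE, hx,
            show ((2 * N : ℕ) : ℝ) * m * (m / ((2 * N : ℕ) : ℝ)) = m ^ 2 by field_simp,
            ← Real.rpow_natCast m 2, ← Real.rpow_mul h.le]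
          congr 3
          push_cast
          ring
      _ = m ^ 6 * M := by
          rw [← Real.rpow_add h, sub_add_cancel, show (6 : ℝ) = ((6 : ℕ) : ℝ) by norm_num,
            Real.rpow_natCast]
      _ ≤ _ := hkey.trans (le_of_eq (by ring))
  rw [show m / (N : ℝ) = 2 * x by rw [hx]; push_cast; field_simp,
    Real.mul_rpow two_pos.le hx0.le, div_mul_eq_mul_div, div_mul_eq_mul_div,
    div_le_iff₀ (by positivity)]
  calc 8 * (N : ℝ) ^ 2 * (2 ^ (2 + ε) * x ^ (2 + ε))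
      = M * x ^ (2 + ε) * 2 ^ (2 + ε) := by rw [hM8]; ring
    _ ≤ S * C * 2 ^ (2 + ε) := mul_le_mul_of_nonneg_right hmain (by positivity)
    _ = _ := by ring

/-- The same for every `ε > 0`. -/
theorem exists_triples_ge_all {ε : ℝ} (hε : 0 < ε) : ∃ c : ℝ, 0 < c ∧
    ∀ N : ℕ, 1 ≤ N → ∀ A : Finset ℕ, A ⊆ Icc 1 N →
      c * (N : ℝ) ^ 2 * ((A.card : ℝ) / N) ^ (2 + ε) ≤ (squareTriples A).card := by
  rcases le_or_gt ε 1 with h1 | h1
  · exact exists_triples_ge hε h1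
  obtain ⟨c, hc, h⟩ := exists_triples_ge one_pos le_rfl
  refine ⟨c, hc, fun N hN A hA => le_trans (mul_le_mul_of_nonneg_left ?_ (by positivity))
    (h N hN A hA)⟩
  rcases Nat.eq_zero_or_pos A.card with h0 | h0
  · rw [h0]
    simp only [Nat.cast_zero, zero_div]
    rw [Real.zero_rpow (by linarith), Real.zero_rpow (by norm_num)]
  refine Real.rpow_le_rpow_of_exponent_ge (by positivity) ?_ (by linarith)
  rw [div_le_one (Nat.cast_pos.2 hN)]
  refine Nat.cast_le.2 ((card_le_card hA).trans ?_)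
  rw [Nat.card_Icc, Nat.add_sub_cancel]

end FA.SquareRestriction
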